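import Mathlib
import Fermat.Agent.S17.H797.DerDefs
import Fermat.Agent.S17.H800.DerLocal
import Fermat.Agent.S24.Deg.H457_Degree

/-!
# S17 / G-DIV, piece DER-b (helper711): places of generic type

`stmtDERb : H797.StmtDERb N L` (exact shape of `H797/DerDefs.lean`, hypothesis `[FF1 L (FL N L)]`
only), by INSTANTIATION of helper800's abstract local statement `H800.GenericSetup`
(`S17/H800/DerLocal.lean`) with `K₁ = ℚ`, `F₁ =` the image of the rational function field
`ℚ(X₀(N))` in `F_L`, `x = t = j`:

* `isAlgebraic_of_mem_F1` : `F₁` is algebraic over `ℚ(t)` (from the degree bound of S24,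
  `Deg457.algDeg_of_mem_field` over `ℚ` + `hyp_complex_card`);
* `evT_injective` : `t` is transcendental over `ℚ`;
* `exists_frac` : `F_L = Frac (L · F₁)`;
* `tL_notMem_range` : `t` is not constant;
* `genericSetup` : the structure `GenericSetup P (DL d) F₁ t` at every place `P` of generic type.
-/

set_option autoImplicit false
set_option linter.unusedSectionVars false
set_option linter.style.haveILetI false

noncomputable section

open AlgebraicCurve ModularCurve Polynomial

namespace Fermat.Agent.S17.H711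

open Fermat.Agent.Lib.RR Fermat.Agent.S17.GDiv Fermat.Agent.S17.H797 Fermat.Agent.S17.H800

section Setup

variable (N : ℕ) [NeZero N] (L : Type) [Field L] [Algebra ℚ L]

/-- The `ℚ`-algebra structure of `F_L` (through `L`). -/
@[reducible] def algQ : Algebra ℚ (FL N L) :=
  ((algebraMap L (FL N L)).comp (algebraMap ℚ L)).toAlgebra

attribute [local instance] algQ

theorem isScalarTower_algQ :
    @IsScalarTower ℚ L (FL N L) _ _ (algQ N L).toSMul :=
  IsScalarTower.of_algebraMap_eq (fun _ => rfl)

attribute [local instance] isScalarTower_algQ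

/-- `bcQ` as a ring homomorphism. -/
def bcQHom : modularFunctionFieldFull N →+* FL N L where
  toFun := bcQ N L
  map_one' := Subtype.ext (map_one (coeffEmb L))
  map_mul' _ _ := Subtype.ext (map_mul (coeffEmb L) _ _)
  map_zero' := Subtype.ext (map_zero (coeffEmb L))
  map_add' _ _ := Subtype.ext (map_add (coeffEmb L) _ _)

@[simp] theorem bcQHom_apply (u : modularFunctionFieldFull N) : bcQHom N L u = bcQ N L u := rfl

/-- The image of the rational function field in `F_L`, as an intermediate field over `ℚ`. -/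
def F1 : IntermediateField ℚ (FL N L) := ((bcQHom N L).toRatAlgHom).fieldRange

theorem mem_F1 {h : FL N L} : h ∈ F1 N L ↔ ∃ u : modularFunctionFieldFull N, bcQ N L u = h := by
  rw [F1, AlgHom.mem_fieldRange]
  rfl

theorem bcQ_mem_F1 (u : modularFunctionFieldFull N) : bcQ N L u ∈ F1 N L :=
  (mem_F1 N L).2 ⟨u, rfl⟩

/-- `t` is not a constant. -/
theorem tL_notMem_range : tL N L ∉ Set.range (algebraMap L (FL N L)) := by
  rintro ⟨c, hc⟩
  have h1 : ((algebraMap L (FL N L) c : FL N L) : LaurentSeries L).coeff (-1)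
      = ((tL N L : FL N L) : LaurentSeries L).coeff (-1) := by rw [hc]
  have h2 : ((algebraMap L (FL N L) c : FL N L) : LaurentSeries L)
      = algebraMap L (LaurentSeries L) c := rfl
  rw [h2, algebraMap_laurentSeries_eq_single] at h1
  have h3 : ((tL N L : FL N L) : LaurentSeries L) = coeffEmb L jq := rfl
  rw [h3, coeffEmb_coeff, coeff_jq_neg_one, map_one,
    HahnSeries.coeff_single_of_ne (by norm_num)] at h1
  exact zero_ne_one h1

/-- evaluation of rational polynomials at `t`, as a ring homomorphism -/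
def evT : ℚ[X] →+* FL N L := (aeval (R := ℚ) (tL N L)).toRingHom

theorem evT_X : evT N L X = tL N L := by
  simp [evT]

open Fermat.Agent.S24.Deg457 in
theorem val_comp_evT :
    ((FL N L).val.toRingHom).comp (evT N L) =
      (coeffMap (algebraMap ℚ L)).comp (evJ (JK ℚ)) := by
  refine Polynomial.ringHom_ext' (Subsingleton.elim _ _) ?_
  show ((evT N L X : FL N L) : LaurentSeries L) = coeffMap (algebraMap ℚ L) (aeval (JK ℚ) X)
  rw [evT_X, aeval_X, JK, coeffMap_coeffEmb']
  rfl

open Fermat.Agent.S24.Deg457 in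
/-- Every function with rational `q`-expansion satisfies a nonzero polynomial relation over
`ℚ[t]`. -/
theorem exists_relation (u : modularFunctionFieldFull N) :
    ∃ Q : ℚ[X][X], Q ≠ 0 ∧ Q.eval₂ (evT N L) (bcQ N L u) = 0 := by
  have hx : coeffEmb ℚ (u : LaurentSeries ℚ) ∈ laurentBaseChange ℚ (modularFunctionFieldFull N) :=
    coeffEmb_mem_laurentBaseChange ℚ u.2
  obtain ⟨Q, hQ0, -, hQ⟩ := algDeg_of_mem_field (N := N) (algebraMap ℚ ℂ) (hyp_complex_card N) hx
  refine ⟨Q, hQ0, ?_⟩
  have h1 := congrArg (coeffMap (algebraMap ℚ L)) hQ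
  rw [Polynomial.hom_eval₂, map_zero, coeffMap_coeffEmb', ← val_comp_evT N L] at h1
  apply Subtype.ext
  show (FL N L).val.toRingHom (Q.eval₂ (evT N L) (bcQ N L u)) = 0
  rw [Polynomial.hom_eval₂]
  exact h1

open Fermat.Agent.S24.Deg457 in
/-- `t` is transcendental over `ℚ`. -/
theorem evT_injective : Function.Injective (evT N L) := by
  rw [injective_iff_map_eq_zero]
  intro p hp
  by_contra hp0
  have h1 : (p.map (algebraMap ℚ L)) ≠ 0 := by
    rwa [Ne, Polynomial.map_eq_zero]
  have h2 := aeval_JK_ne_zero L h1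
  apply h2
  have h3 := congrArg ((FL N L).val.toRingHom) hp
  rw [map_zero] at h3
  rw [← h3, aeval_def, Polynomial.eval₂_map]
  show _ = ((FL N L).val.toRingHom).comp (evT N L) p
  have : ((FL N L).val.toRingHom).comp (evT N L)
      = Polynomial.eval₂RingHom ((algebraMap L (LaurentSeries L)).comp (algebraMap ℚ L)) (JK L) := by
    refine Polynomial.ringHom_ext' (Subsingleton.elim _ _) ?_
    show ((evT N L X : FL N L) : LaurentSeries L) = Polynomial.eval₂ _ (JK L) X
    rw [evT_X, Polynomial.eval₂_X]
    rfl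
  rw [this]
  rfl

/-- Every element of the image of the rational function field is algebraic over `ℚ(t)`. -/
theorem isAlgebraic_of_mem_F1 {h : FL N L} (hh : h ∈ F1 N L) :
    IsAlgebraic (IntermediateField.adjoin ℚ {tL N L}) h := by
  obtain ⟨u, rfl⟩ := (mem_F1 N L).1 hh
  obtain ⟨Q, hQ0, hQ⟩ := exists_relation N L u
  let tE : IntermediateField.adjoin ℚ {tL N L} :=
    ⟨tL N L, IntermediateField.mem_adjoin_simple_self ℚ (tL N L)⟩
  let ψ : ℚ[X] →+* IntermediateField.adjoin ℚ {tL N L} := (aeval (R := ℚ) tE).toRingHom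
  have hcomp : (algebraMap (IntermediateField.adjoin ℚ {tL N L}) (FL N L)).comp ψ = evT N L := by
    refine Polynomial.ringHom_ext' (Subsingleton.elim _ _) ?_
    show algebraMap (IntermediateField.adjoin ℚ {tL N L}) (FL N L) (ψ X) = evT N L X
    rw [evT_X]
    simp [ψ, tE]
  have hψ : Function.Injective ψ := by
    have h1 : Function.Injective
        ((algebraMap (IntermediateField.adjoin ℚ {tL N L}) (FL N L)).comp ψ) := by
      rw [hcomp]
      exact evT_injective N L
    intro a b hab
    exact h1 (by simp only [RingHom.comp_apply, hab])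
  refine ⟨Q.map ψ, ?_, ?_⟩
  · rwa [Ne, ← Polynomial.map_zero ψ, (Polynomial.map_injective ψ hψ).eq_iff]
  · rw [aeval_def, Polynomial.eval₂_map, hcomp]
    exact hQ

/-- `F_L` is the fraction field of `L · F₁`. -/
theorem exists_frac (f : FL N L) :
    ∃ g ∈ Algebra.adjoin L (F1 N L : Set (FL N L)),
      ∃ h ∈ Algebra.adjoin L (F1 N L : Set (FL N L)), h ≠ 0 ∧ f * h = g := by
  have hf : (f : LaurentSeries L) ∈ IntermediateField.adjoin L
      (⇑(coeffEmb L) '' ((modularFunctionFieldFull N : IntermediateField ℚ (LaurentSeries ℚ)) :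
        Set (LaurentSeries ℚ))) := f.2
  rw [IntermediateField.mem_adjoin_iff_div] at hf
  obtain ⟨r, hr, s, hs, hfrs⟩ := hf
  have hle : Algebra.adjoin L
      (⇑(coeffEmb L) '' ((modularFunctionFieldFull N : IntermediateField ℚ (LaurentSeries ℚ)) :
        Set (LaurentSeries ℚ))) ≤
      (Algebra.adjoin L (F1 N L : Set (FL N L))).map (FL N L).val := by
    refine Algebra.adjoin_le ?_
    rintro _ ⟨y, hy, rfl⟩
    exact ⟨bcQ N L ⟨y, hy⟩, Algebra.subset_adjoin (bcQ_mem_F1 N L _), rfl⟩
  obtain ⟨r', hr', rfl⟩ := hle hr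
  obtain ⟨s', hs', rfl⟩ := hle hs
  by_cases hs0 : s' = 0
  · refine ⟨0, Subalgebra.zero_mem _, 1, Subalgebra.one_mem _, one_ne_zero, ?_⟩
    rw [mul_one]
    apply Subtype.ext
    rw [hfrs, hs0]
    simp
  · refine ⟨r', hr', s', hs', hs0, ?_⟩
    apply Subtype.ext
    have hs0' : ((FL N L).val s' : LaurentSeries L) ≠ 0 := by
      intro h
      exact hs0 (Subtype.ext h)
    show (f : LaurentSeries L) * (FL N L).val s' = (FL N L).val r'
    rw [hfrs]
    exact div_mul_cancel₀ _ hs0'

end Setup

section Main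

variable {N : ℕ} [NeZero N] {L : Type} [Field L] [Algebra ℚ L]

attribute [local instance] algQ isScalarTower_algQ

/-- The hypotheses of helper800's abstract local statement hold at a place of generic type of
`F_L`. -/
theorem genericSetup [FF1 L (FL N L)] (d : Derivation ℚ L L) (P : Place L (FL N L))
    (hP : ¬ IsConstType P) :
    GenericSetup (K1 := ℚ) P (DL d) (F1 N L) (tL N L) where
  deg_one := deg_eq_one P
  isDer := ⟨fun f g => DL_mul d f g⟩
  der_F1 := by
    intro h hh
    obtain ⟨u, rfl⟩ := (mem_F1 N L).1 hh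
    exact DL_bcQ d u
  der_const := fun c => ⟨d c, DL_algebraMap d c⟩
  generic := by
    intro h hh _
    obtain ⟨u, rfl⟩ := (mem_F1 N L).1 hh
    by_contra hne
    exact hP ⟨u, hne⟩
  x_mem := bcQ_mem_F1 N L (jQ N)
  x_nonconst := tL_notMem_range N L
  algebraic := fun _ hh => isAlgebraic_of_mem_F1 N L hh
  frac := exists_frac N L

/-- **DER-b**: places of generic type. -/
theorem stmtDERb [FF1 L (FL N L)] : StmtDERb N L := by
  intro d P hP
  have H := genericSetup d P hP
  obtain ⟨a, ha, hu0⟩ := H.exists_value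
  refine ⟨⟨a, ha⟩, fun h => ?_⟩
  by_cases hD : DL d h = 0
  · exact Or.inl hD
  refine Or.inr ?_
  have hh0 : h ≠ 0 := by
    rintro rfl
    exact hD (map_zero _)
  refine ⟨H.ord_sub_one_le_ord_der hh0 hD, fun hord => ?_, fun hval => ?_⟩
  · exact ord_nonneg_of_mem P (H.der_mem_of_ord_eq_zero hh0 hord)
  · have hda : d a = 0 := hval a ha
    refine (H.derLocalData ha hu0).ord_le_ord_der ?_ hh0 hD
    have ht : DL d (tL N L) = 0 := DL_bcQ d (jQ N)
    rw [map_sub, ht, DL_algebraMap, hda, map_zero, sub_zero]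

end Main

end Fermat.Agent.S17.H711
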