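import Mathlib
import Fermat.Agent.S17.H711.DerB
import Fermat.Agent.S17.H770.DerA

/-!
# S17 / G-DIV, piece DER (helper711): assembly

`stmtDER : GDiv.StmtDER N L` for every algebraically closed field `L` of characteristic zero
(exact shape of `GDiv/Defs.lean`), from

* `H770.stmtDERa` (helper770, places of constant type),
* `H711.stmtDERb` (places of generic type, instantiation of helper800's `GenericSetup`),
* `H797.stmtDER_of` (helper797).
-/

set_option autoImplicit false

namespace Fermat.Agent.S17.H711

open Fermat.Agent.Lib.RR Fermat.Agent.S17.GDiv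

/-- **DER**. -/
theorem stmtDER (N : ℕ) [NeZero N] (L : Type) [Field L] [Algebra ℚ L] [IsAlgClosed L]
    [FF1 L (FL N L)] : StmtDER N L :=
  Fermat.Agent.S17.H797.stmtDER_of (Fermat.Agent.S17.H770.stmtDERa N L) stmtDERb

end Fermat.Agent.S17.H711
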