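import Mathlib
import Fermat.Agent.S17.GDiv.Assembly
import Fermat.Agent.S17.H871.BC
import Fermat.Agent.S17.H871.ZRat
import Fermat.Agent.S17.H917.CoreRig
import Fermat.Agent.S17.H830.NSMain
import Fermat.Agent.S17.H200.Plext
import Fermat.Agent.S17.H137.Gen
import Fermat.Agent.S17.H560.GenStab
import Fermat.Agent.S17.H20.TransStmt
import Fermat.Agent.S17.H770.DerStmt
import Fermat.Agent.S17.H711.Der

/-!
# S17 / G-DIV: the final instantiation (helper711)

`jzero_divisible : ∀ n ≠ 0, ∀ x : JZero N, ∃ y, n • y = x` — the group `J₀(N)(ℚ̄)` is divisible.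

This is `GDiv.divisible_of` (helper797 / helper20) for `L = ℂ`, with all the pieces landed on main:
BC, ZRAT, CUSPRAT, `ff1_FL` (helper871), CORE, RIG (helper917), NS (helper830), PLEXT (helper200),
GEN (helper137), GENSTAB (helper560), TRANS (helper20), DEREX (helper770), DPRES (helper797),
DER (helper770 + helper711, abstract core of helper800).
-/

set_option autoImplicit false
set_option linter.style.haveILetI false
set_option linter.unusedSectionVars false

noncomputable section

open AlgebraicCurve ModularCurve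

namespace Fermat.Agent.S17.H711

open Fermat.Agent.Lib.RR Fermat.Agent.S17.GDiv

section General

variable (L : Type) [Field L] [Algebra ℚ L] [Algebra Qb L]

/-- The image of `ℚ̄` in a field of characteristic zero is countable. -/
theorem countable_kL [CharZero L] : (kL L : Set L).Countable := by
  refine (Algebraic.countable ℚ L).mono ?_
  rintro _ ⟨z, rfl⟩
  have hz : IsAlgebraic ℚ z := by
    have h : (inferInstance : Algebra ℚ Qb) =
        (AlgebraicClosure.instAlgebra ℚ : Algebra ℚ (AlgebraicClosure ℚ)) := Subsingleton.elim _ _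
    have h2 : @Algebra.IsAlgebraic ℚ Qb _ _ (inferInstance : Algebra ℚ Qb) := by
      rw [h]
      infer_instance
    exact h2.isAlgebraic z
  obtain ⟨p, hp0, hp⟩ := hz
  refine ⟨p, hp0, ?_⟩
  have h1 := congrArg (algebraMap Qb L) hp
  rw [map_zero] at h1
  rw [← h1, Polynomial.aeval_def, Polynomial.aeval_def, Polynomial.hom_eval₂]
  congr 1
  exact Subsingleton.elim _ _

/-- The image of `ℚ̄` is algebraically closed in `L`. -/
theorem algClosedIn_kL : AlgClosedIn (kL L) := by
  intro x hx
  have hx' : IsAlgebraic Qb x := by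
    refine IsAlgebraic.of_ringHom_of_comp_eq (R := Qb) (S := kL L) (A := L) (B := L)
      (f := (algebraMap Qb L).rangeRestrictField) (g := RingHom.id L) hx ?_
      Function.injective_id ?_
    · rintro ⟨_, z, rfl⟩
      exact ⟨z, rfl⟩
    · ext z
      rfl
  have hint : IsIntegral Qb x := hx'.isIntegral
  have hdeg : (minpoly Qb x).degree = 1 :=
    IsAlgClosed.degree_eq_one_of_irreducible Qb (minpoly.irreducible hint)
  exact minpoly.mem_range_of_degree_eq_one Qb x hdeg

end General

theorem uncountable_complex : Uncountable ℂ :=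
  ⟨fun _ => not_countable_complex Set.countable_univ⟩

/-- **G-DIV**: `J₀(N)(ℚ̄)` is a divisible group. -/
theorem jzero_divisible (N : ℕ) [NeZero N] (n : ℕ) (hn : n ≠ 0) (x : JZero N) :
    ∃ y : JZero N, n • y = x := by
  letI : Algebra Qb ℂ := Fermat.Agent.S17.H871.algebraQb ℂ
  haveI : FF1 ℂ (FL N ℂ) := Fermat.Agent.S17.H871.ff1_FL N ℂ
  haveI : Uncountable ℂ := uncountable_complex
  have hZRAT : StmtZRAT N ℂ := Fermat.Agent.S17.H871.stmtZRAT N ℂ
  have hCUSP : StmtCUSPRAT N ℂ := Fermat.Agent.S17.H871.stmtCUSPRAT N ℂ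
  have hPLEXT : StmtPLEXT N ℂ := Fermat.Agent.S17.H200.stmtPLEXT
  have hCORE : StmtCORE N ℂ :=
    Fermat.Agent.S17.H917.stmtCORE (stmtDER N ℂ) (Fermat.Agent.S17.H770.stmtDEREX ℂ)
      Fermat.Agent.S17.H797.stmtDPRES
  have hRIG : StmtRIG N ℂ := Fermat.Agent.S17.H917.stmtRIG hCORE hZRAT hCUSP
  exact divisible_of N ℂ (countable_kL ℂ) (algClosedIn_kL ℂ)
    (Fermat.Agent.S17.H871.stmtBC N ℂ) hRIG
    (Fermat.Agent.S17.H830.stmtNS hPLEXT)
    (Fermat.Agent.S17.H137.stmtGEN N ℂ)
    (Fermat.Agent.S17.H560.stmtGENSTAB hRIG hCUSP hZRAT)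
    (Fermat.Agent.S17.H20.stmtTRANS hPLEXT hZRAT) n hn x

end Fermat.Agent.S17.H711
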